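import Fermat.Agent.H1.MWE.SurjMain

/-!
# P-MW block E / MW-E-D-SURJ (row 917, helper1), part 3: integrality descent

An element `f` of `F₀ ⊆ ℚ((q))` whose image in `ℚ̄ · F₀` is integral over `ℚ̄[t]` is integral over
`ℚ[t]`.  Proof: apply the coefficientwise map `Λ` of a `ℚ`-linear retraction `λ : ℚ̄ → ℚ` to a
monic relation `f ^ d = ∑_{i < d, j} c_{ij} t ^ j f ^ i` (`c_{ij} ∈ ℚ̄`): since
`Λ (c • g) = λ c • g` for `g ∈ ℚ((q))`, we get `f ^ d = ∑ λ(c_{ij}) t ^ j f ^ i`.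
-/

set_option autoImplicit false

noncomputable section

open ModularCurve AlgebraicCurve IntermediateField Polynomial

namespace Fermat.Agent.H1.MWE

open Fermat.Agent.H23.MWE
open Fermat.Agent.H92.MW (QQbar)

/-- A `ℚ`-linear retraction of `ℚ → ℚ̄`. -/
theorem exists_rat_retraction : ∃ lam : QQbar →ₗ[ℚ] ℚ, lam 1 = 1 := by
  obtain ⟨g, hg⟩ := LinearMap.exists_leftInverse_of_injective (Algebra.linearMap ℚ QQbar)
    (LinearMap.ker_eq_bot.2 (algebraMap ℚ QQbar).injective)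
  refine ⟨g, ?_⟩
  have h := LinearMap.congr_fun hg 1
  simpa using h

/-- The coefficientwise application of a `ℚ`-linear form. -/
def coeffLam (lam : QQbar →ₗ[ℚ] ℚ) (y : LaurentSeries QQbar) : LaurentSeries ℚ :=
  HahnSeries.map y lam

theorem coeffLam_coeff (lam : QQbar →ₗ[ℚ] ℚ) (y : LaurentSeries QQbar) (k : ℤ) :
    (coeffLam lam y).coeff k = lam (y.coeff k) := rfl

theorem coeffLam_zero (lam : QQbar →ₗ[ℚ] ℚ) : coeffLam lam 0 = 0 := by
  ext k
  rw [coeffLam_coeff, HahnSeries.coeff_zero, HahnSeries.coeff_zero, map_zero]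

theorem coeffLam_add (lam : QQbar →ₗ[ℚ] ℚ) (x y : LaurentSeries QQbar) :
    coeffLam lam (x + y) = coeffLam lam x + coeffLam lam y := by
  ext k
  rw [coeffLam_coeff, HahnSeries.coeff_add, HahnSeries.coeff_add, map_add, coeffLam_coeff,
    coeffLam_coeff]

section Laurent

variable {F₀ : IntermediateField ℚ (LaurentSeries ℚ)}

theorem coeffLam_smul_toBar (lam : QQbar →ₗ[ℚ] ℚ) (c : QQbar) (g : ↥F₀) :
    coeffLam lam ((c • toBar F₀ g : FBar F₀) : LaurentSeries QQbar)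
      = lam c • (g : LaurentSeries ℚ) := by
  ext k
  rw [coeffLam_coeff, HahnSeries.coeff_smul, Algebra.smul_def c (toBar F₀ g),
    Fermat.Agent.H53.coeff_algebraMap_mul, coe_toBar, coeffEmb_coeff, smul_eq_mul]
  have h1 : c * algebraMap ℚ QQbar ((g : LaurentSeries ℚ).coeff k)
      = ((g : LaurentSeries ℚ).coeff k) • c := by
    rw [Algebra.smul_def, mul_comm]
  rw [h1, map_smul, smul_eq_mul, mul_comm]

/-- `Λ` maps the `ℚ̄`-span of `toBar '' G` into the `ℚ`-span of `G`. -/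
theorem coeffLam_span (lam : QQbar →ₗ[ℚ] ℚ) (G : Set ↥F₀) {y : FBar F₀}
    (hy : y ∈ Submodule.span QQbar (toBar F₀ '' G)) :
    ∀ c : QQbar, ∃ z ∈ Submodule.span ℚ G,
      ((z : ↥F₀) : LaurentSeries ℚ) = coeffLam lam ((c • y : FBar F₀) : LaurentSeries QQbar) := by
  induction hy using Submodule.span_induction with
  | mem x hx =>
    obtain ⟨g, hg, rfl⟩ := hx
    intro c
    refine ⟨lam c • g, Submodule.smul_mem _ _ (Submodule.subset_span hg), ?_⟩
    rw [coeffLam_smul_toBar]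
    rfl
  | zero =>
    intro c
    refine ⟨0, Submodule.zero_mem _, ?_⟩
    rw [smul_zero]
    exact (coeffLam_zero lam).symm
  | add x y _ _ hx hy =>
    intro c
    obtain ⟨z₁, hz₁, h₁⟩ := hx c
    obtain ⟨z₂, hz₂, h₂⟩ := hy c
    refine ⟨z₁ + z₂, Submodule.add_mem _ hz₁ hz₂, ?_⟩
    rw [smul_add]
    show ((z₁ : ↥F₀) : LaurentSeries ℚ) + ((z₂ : ↥F₀) : LaurentSeries ℚ)
      = coeffLam lam (((c • x : FBar F₀) : LaurentSeries QQbar)
          + ((c • y : FBar F₀) : LaurentSeries QQbar))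
    rw [coeffLam_add, h₁, h₂]
  | smul a x _ hx =>
    intro c
    obtain ⟨z, hz, h⟩ := hx (c * a)
    refine ⟨z, hz, ?_⟩
    rw [h, mul_smul]

end Laurent

end Fermat.Agent.H1.MWE

end
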