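import Fermat.Agent.H1.MWE.IntDescent

/-!
# P-MW block E / MW-E-D-SURJ (row 917, helper1), part 4: integrality descent, conclusion

* `pow_mem_span_of_isIntegral` : a monic relation over `K[y]` as a `K`-linear relation;
* `isIntegral_of_pow_mem_span` : conversely;
* `integralDescent : IntegralDescentStatement` (unconditional);
* `idealDivisorSurj_of2 : HolDivisorStatement → DescentStatement → IdealDivisorSurjStatement`.
-/

set_option autoImplicit false

noncomputable section

open ModularCurve AlgebraicCurve IntermediateField Polynomial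

namespace Fermat.Agent.H1.MWE

open Fermat.Agent.H23.MWE
open Fermat.Agent.H92.MW (QQbar)

section Generic

variable {K A : Type*} [Field K] [Field A] [Algebra K A]

/-- An element integral over `K[y]` satisfies a monic relation, written `K`-linearly. -/
theorem pow_mem_span_of_isIntegral (y a : A)
    (ha : IsIntegral (Algebra.adjoin K ({y} : Set A)) a) :
    ∃ d : ℕ, a ^ d ∈ Submodule.span K {x : A | ∃ j i : ℕ, i < d ∧ x = y ^ j * a ^ i} := by
  obtain ⟨p, hmonic, hp⟩ := ha
  refine ⟨p.natDegree, ?_⟩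
  rw [eval₂_eq_sum_range, Finset.sum_range_succ, hmonic.coeff_natDegree, map_one, one_mul] at hp
  have h1 : a ^ p.natDegree = -∑ i ∈ Finset.range p.natDegree,
      algebraMap (Algebra.adjoin K ({y} : Set A)) A (p.coeff i) * a ^ i := by
    rw [eq_neg_iff_add_eq_zero, add_comm]
    exact hp
  rw [h1]
  refine Submodule.neg_mem _ (Submodule.sum_mem _ fun i hi => ?_)
  have hi' : i < p.natDegree := Finset.mem_range.1 hi
  have hr : (algebraMap (Algebra.adjoin K ({y} : Set A)) A (p.coeff i)) ∈
      (aeval (R := K) y).range := by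
    rw [← Algebra.adjoin_singleton_eq_range_aeval]
    exact (p.coeff i).2
  obtain ⟨q, hq⟩ := hr
  have hq' : algebraMap (Algebra.adjoin K ({y} : Set A)) A (p.coeff i) = aeval y q := hq.symm
  rw [hq', aeval_eq_sum_range, Finset.sum_mul]
  refine Submodule.sum_mem _ fun j _ => ?_
  rw [smul_mul_assoc]
  exact Submodule.smul_mem _ _ (Submodule.subset_span ⟨j, i, hi', rfl⟩)

/-- A `K`-linear monic relation gives integrality over `K[y]`. -/
theorem isIntegral_of_pow_mem_span (y a : A) (d : ℕ)
    (ha : a ^ d ∈ Submodule.span K {x : A | ∃ j i : ℕ, i < d ∧ x = y ^ j * a ^ i}) :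
    IsIntegral (Algebra.adjoin K ({y} : Set A)) a := by
  classical
  have hle : Submodule.span K {x : A | ∃ j i : ℕ, i < d ∧ x = y ^ j * a ^ i} ≤
      (Submodule.span (Algebra.adjoin K ({y} : Set A))
        (Set.range fun i : Fin d => a ^ (i : ℕ))).restrictScalars K := by
    rw [Submodule.span_le]
    intro x hx
    obtain ⟨j, i, hi, rfl⟩ := hx
    have h1 : y ^ j * a ^ i
        = (⟨y ^ j, pow_mem (Algebra.self_mem_adjoin_singleton K y) j⟩ :
            Algebra.adjoin K ({y} : Set A)) • a ^ i := rfl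
    rw [h1]
    show _ ∈ Submodule.span (Algebra.adjoin K ({y} : Set A))
        (Set.range fun i : Fin d => a ^ (i : ℕ))
    exact Submodule.smul_mem _ _ (Submodule.subset_span (Set.mem_range_self (⟨i, hi⟩ : Fin d)))
  have h2 := hle ha
  rw [Submodule.restrictScalars_mem, Submodule.mem_span_range_iff_exists_fun] at h2
  obtain ⟨c, hc⟩ := h2
  refine ⟨X ^ d - ∑ i : Fin d, C (c i) * X ^ (i : ℕ), ?_, ?_⟩
  · refine (monic_X_pow d).sub_of_left ?_
    rw [degree_X_pow]
    exact degree_sum_fin_lt c
  · rw [eval₂_sub, eval₂_pow, eval₂_X, eval₂_finset_sum, sub_eq_zero, ← hc]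
    refine Finset.sum_congr rfl fun i _ => ?_
    rw [eval₂_mul, eval₂_C, eval₂_pow, eval₂_X, Algebra.smul_def]

end Generic

/-- **Integrality descent** (unconditional): an element of `F₀` which is integral over `ℚ̄[t]`
is integral over `ℚ[t]`. -/
theorem integralDescent : IntegralDescentStatement := by
  intro F₀ t f hf
  obtain ⟨lam, hlam⟩ := exists_rat_retraction
  obtain ⟨d, hd⟩ := pow_mem_span_of_isIntegral (toBar F₀ t) (toBar F₀ f) hf
  have hset : {x : FBar F₀ | ∃ j i : ℕ, i < d ∧ x = toBar F₀ t ^ j * toBar F₀ f ^ i}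
      = toBar F₀ '' {x : ↥F₀ | ∃ j i : ℕ, i < d ∧ x = t ^ j * f ^ i} := by
    ext x
    constructor
    · rintro ⟨j, i, hi, rfl⟩
      exact ⟨t ^ j * f ^ i, ⟨j, i, hi, rfl⟩, by rw [map_mul, map_pow, map_pow]⟩
    · rintro ⟨_, ⟨j, i, hi, rfl⟩, rfl⟩
      exact ⟨j, i, hi, by rw [map_mul, map_pow, map_pow]⟩
  rw [hset] at hd
  obtain ⟨z, hz, hzeq⟩ := coeffLam_span lam _ hd 1
  have h1 : (1 : QQbar) • toBar F₀ f ^ d = (1 : QQbar) • toBar F₀ (f ^ d) := by
    rw [map_pow]
  rw [h1, coeffLam_smul_toBar, hlam, one_smul] at hzeq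
  have hzf : z = f ^ d := Subtype.ext hzeq
  rw [hzf] at hz
  exact isIntegral_of_pow_mem_span t f d hz

/-- **MW-E-D-SURJ**, from `HolDivisorStatement` and `DescentStatement`. -/
theorem idealDivisorSurj_of2 (hHD : HolDivisorStatement) (hDesc : DescentStatement) :
    IdealDivisorSurjStatement :=
  idealDivisorSurj_of hHD hDesc integralDescent

end Fermat.Agent.H1.MWE

end
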