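import Fermat.Agent.H23.MWE.Interfaces
import Fermat.Agent.H53.SS2.InvRepGalois
import Fermat.Agent.H58.RR.CharZero

/-!
# P-MW block E / MW-E-D-SURJ (row 917, helper1), part 1: generic lemmas

* `map_mem_valuationSubring_of_isIntegral` : the image of an integral element lies in every
  valuation ring containing the image of the base ring;
* `ord_toBar_nonneg` : the elements of `RatRing F₀ t` are regular away from `P`;
* `isIntegral_smul` : a semilinear automorphism fixing `y` preserves integrality over `K[y]`;
* `span_ord_gt` : the elements of a span of functions of order `≥ n` at `Q` have order `≥ n`.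
-/

set_option autoImplicit false

noncomputable section

open ModularCurve AlgebraicCurve IntermediateField

namespace Fermat.Agent.H1.MWE

open Fermat.Agent.H23.MWE
open Fermat.Agent.H92.MW (QQbar)

/-! ### Integrality and valuation rings -/

/-- The image under `ψ` of an element integral over `S` lies in every valuation ring containing
`ψ S`. -/
theorem map_mem_valuationSubring_of_isIntegral {k A B : Type*} [CommRing k] [Field A]
    [Algebra k A] [Field B] (ψ : A →+* B) (S : Subalgebra k A) (O : ValuationSubring B)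
    (hS : ∀ a ∈ S, ψ a ∈ O) {a : A} (ha : IsIntegral S a) : ψ a ∈ O := by
  let φ : S →+* O :=
    { toFun := fun s => ⟨ψ (s : A), hS s s.2⟩
      map_one' := Subtype.ext (map_one ψ)
      map_mul' := fun x y => Subtype.ext (map_mul ψ (x : A) (y : A))
      map_zero' := Subtype.ext (map_zero ψ)
      map_add' := fun x y => Subtype.ext (map_add ψ (x : A) (y : A)) }
  have h1 : IsIntegral O (ψ a) :=
    IsIntegral.map_of_comp_eq φ ψ (by ext; rfl) ha
  obtain ⟨z, hz⟩ := (IsIntegrallyClosed.isIntegral_iff (R := O) (K := B)).mp h1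
  rw [← hz]
  exact z.2

section Generic

variable {K F : Type} [Field K] [Field F] [Algebra K F]

/-- A semilinear automorphism fixing `y` maps `K[y]` into itself. -/
theorem smul_mem_adjoin (g : SemilinearAut K F) (y : F) (hy : g • y = y) {a : F}
    (ha : a ∈ Algebra.adjoin K ({y} : Set F)) : g • a ∈ Algebra.adjoin K ({y} : Set F) := by
  induction ha using Algebra.adjoin_induction with
  | mem x hx =>
    rw [Set.mem_singleton_iff] at hx
    rw [hx, hy]
    exact Algebra.self_mem_adjoin_singleton K y
  | algebraMap r =>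
    rw [SemilinearAut.smul_algebraMap]
    exact Subalgebra.algebraMap_mem _ _
  | add x y _ _ hx hy =>
    rw [smul_add]
    exact add_mem hx hy
  | mul x y _ _ hx hy =>
    rw [smul_mul']
    exact mul_mem hx hy

/-- A semilinear automorphism fixing `y` preserves integrality over `K[y]`. -/
theorem isIntegral_smul (g : SemilinearAut K F) (y : F) (hy : g • y = y) {a : F}
    (ha : IsIntegral (Algebra.adjoin K ({y} : Set F)) a) :
    IsIntegral (Algebra.adjoin K ({y} : Set F)) (g • a) := by
  let φ : Algebra.adjoin K ({y} : Set F) →+* Algebra.adjoin K ({y} : Set F) :=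
    { toFun := fun s => ⟨g • (s : F), smul_mem_adjoin g y hy s.2⟩
      map_one' := Subtype.ext (smul_one g)
      map_mul' := fun x y => Subtype.ext (smul_mul' g (x : F) (y : F))
      map_zero' := Subtype.ext (smul_zero g)
      map_add' := fun x y => Subtype.ext (smul_add g (x : F) (y : F)) }
  exact IsIntegral.map_of_comp_eq φ (SemilinearAut.toRingAut g : F →+* F) (by ext; rfl) ha

/-- If every element of `S` is zero or has order `≥ n` at `Q`, the same holds for the span. -/
theorem span_ord_ge (Q : Place K F) (n : ℤ) (S : Set F)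
    (hS : ∀ w ∈ S, w = 0 ∨ n ≤ Q.ord w) {v : F} (hv : v ∈ Submodule.span K S) :
    v = 0 ∨ n ≤ Q.ord v := by
  induction hv using Submodule.span_induction with
  | mem x hx => exact hS x hx
  | zero => exact Or.inl rfl
  | add x y _ _ hx hy =>
    by_cases hxy : x + y = 0
    · exact Or.inl hxy
    · exact Or.inr (Fermat.Agent.H23.ord_add_ge Q hxy n hx hy)
  | smul c x _ hx =>
    by_cases hc : c = 0
    · left
      rw [hc, zero_smul]
    rcases hx with hx | hx
    · left
      rw [hx, smul_zero]
    · right
      rw [Fermat.Agent.H58.rr_smul_ord Q hc]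
      exact hx

end Generic

/-! ### The Laurent setting -/

section Laurent

variable {F₀ : IntermediateField ℚ (LaurentSeries ℚ)} {t : ↥F₀} {P : Place QQbar (FBar F₀)}

theorem toBar_algebraMap (c : ℚ) :
    toBar F₀ (algebraMap ℚ ↥F₀ c) = algebraMap QQbar (FBar F₀) (algebraMap ℚ QQbar c) :=
  DFunLike.congr_fun (RingHom.ext_rat ((toBar F₀).comp (algebraMap ℚ ↥F₀))
    ((algebraMap QQbar (FBar F₀)).comp (algebraMap ℚ QQbar))) c

theorem toBar_eq_zero_iff (f : ↥F₀) : toBar F₀ f = 0 ↔ f = 0 :=
  map_eq_zero_iff (toBar F₀) (toBar F₀).injective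

/-- The Galois action fixes the rational elements. -/
theorem arithmeticGalois_smul_toBar (σ : GalQ) (f : ↥F₀) :
    arithmeticGalois F₀ σ • toBar F₀ f = toBar F₀ f :=
  Subtype.ext (by
    rw [coe_arithmeticGalois_smul, coe_toBar]
    exact coeffMap_coeffEmb σ _)

/-- `toBar` maps `ℚ[t]` into every valuation ring of a place which is not a pole of `t`. -/
theorem toBar_adjoin_mem (Q : Place QQbar (FBar F₀)) (hQ : 0 ≤ Q.ord (toBar F₀ t)) {a : ↥F₀}
    (ha : a ∈ Algebra.adjoin ℚ ({t} : Set ↥F₀)) : toBar F₀ a ∈ Q.toValuationSubring := by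
  induction ha using Algebra.adjoin_induction with
  | mem x hx =>
    rw [Set.mem_singleton_iff] at hx
    rw [hx]
    exact Fermat.Agent.H23.mem_of_ord_nonneg Q hQ
  | algebraMap r =>
    rw [toBar_algebraMap]
    exact Q.algebraMap_mem' _
  | add x y _ _ hx hy =>
    rw [map_add]
    exact add_mem hx hy
  | mul x y _ _ hx hy =>
    rw [map_mul]
    exact mul_mem hx hy

/-- The elements of `RatRing F₀ t` are regular away from the poles of `t`. -/
theorem toBar_mem_of_isIntegral (Q : Place QQbar (FBar F₀)) (hQ : 0 ≤ Q.ord (toBar F₀ t))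
    {f : ↥F₀} (hf : IsIntegral (Algebra.adjoin ℚ ({t} : Set ↥F₀)) f) :
    toBar F₀ f ∈ Q.toValuationSubring :=
  map_mem_valuationSubring_of_isIntegral (toBar F₀) (Algebra.adjoin ℚ ({t} : Set ↥F₀))
    Q.toValuationSubring (fun _ ha => toBar_adjoin_mem Q hQ ha) hf

theorem ord_toBar_nonneg (hT : TData F₀ t P) (r : RatRing F₀ t) (Q : Place QQbar (FBar F₀))
    (hQ : Q ≠ P) : 0 ≤ Q.ord (toBar F₀ (r : ↥F₀)) :=
  Fermat.Agent.H23.ord_nonneg_of_mem Q (toBar_mem_of_isIntegral Q (hT.reg Q hQ) r.2)

end Laurent

end Fermat.Agent.H1.MWE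

end
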