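import Fermat.Agent.H1.MWE.IntDescentFinal
import Fermat.Agent.H15.MWE.Descent
import Fermat.Agent.H98.MWE.HolDivisor

/-!
# P-MW block E / MW-E-D-SURJ (row 917, helper1): UNCONDITIONAL

`idealDivisorSurj : IdealDivisorSurjStatement`, from `idealDivisorSurj_of2` with helper98's
`holDivisor` and helper15's `descent`.
-/

set_option autoImplicit false

namespace Fermat.Agent.H1.MWE

/-- **MW-E-D-SURJ** (unconditional): every Galois-fixed class of degree `0` is the class of the
divisor of a nonzero ideal of `RatRing F₀ t`. -/
theorem idealDivisorSurj : Fermat.Agent.H23.MWE.IdealDivisorSurjStatement :=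
  idealDivisorSurj_of2 Fermat.Agent.H98.MWE.holDivisor Fermat.Agent.H15.MWE.descent

end Fermat.Agent.H1.MWE
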