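import Fermat.Agent.H1.MWE.SurjBasic

/-!
# P-MW block E / MW-E-D-SURJ (row 917, helper1), part 2: the main argument

Every Galois-fixed class `x` of `Pic⁰(ℚ̄ · F₀)` is the class of the divisor of a nonzero ideal of
`RatRing F₀ t`:
* `x = [E - n P]` with `E ≥ 0`, `E P = 0` Galois-invariant (helper53's minimal effective
  representative);
* the ideal `J` of `BarRing` of the functions with divisor `≥ E` away from `P`
  (`HolDivisorStatement`) is Galois-stable, hence spanned by its rational elements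
  (`DescentStatement`), which are integral over `ℚ[t]` (`IntegralDescentStatement`);
* so the minima `E Q` are attained on `I = {f ∈ RatRing | div f ≥ E away from P}`.
-/

set_option autoImplicit false

noncomputable section

open ModularCurve AlgebraicCurve IntermediateField

namespace Fermat.Agent.H1.MWE

open Fermat.Agent.H23.MWE
open Fermat.Agent.H92.MW (QQbar)

/-- **Integrality descent**: an element of `F₀` which is integral over `ℚ̄[t]` is integral over
`ℚ[t]`. -/
def IntegralDescentStatement : Prop :=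
  ∀ (F₀ : IntermediateField ℚ (LaurentSeries ℚ)) (t f : ↥F₀),
    IsIntegral (Algebra.adjoin QQbar ({toBar F₀ t} : Set (FBar F₀))) (toBar F₀ f) →
    IsIntegral (Algebra.adjoin ℚ ({t} : Set ↥F₀)) f

section Main

variable {F₀ : IntermediateField ℚ (LaurentSeries ℚ)} {t : ↥F₀} {P : Place QQbar (FBar F₀)}

/-- The ideal of `RatRing F₀ t` of the functions with divisor `≥ E` away from `P`. -/
def divIdeal (hT : TData F₀ t P) (E : Divisor QQbar (FBar F₀)) : Ideal (RatRing F₀ t) where
  carrier := {f | f = 0 ∨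
    ∀ Q : Place QQbar (FBar F₀), Q ≠ P → E Q ≤ Q.ord (toBar F₀ (f : ↥F₀))}
  zero_mem' := Or.inl rfl
  add_mem' := by
    intro a b ha hb
    by_cases hab : a + b = 0
    · exact Or.inl hab
    right
    intro Q hQ
    have hab' : toBar F₀ (a : ↥F₀) + toBar F₀ (b : ↥F₀) ≠ 0 := by
      rw [← map_add]
      intro h
      exact hab (Subtype.ext ((toBar_eq_zero_iff _).1 h))
    have ha' : toBar F₀ (a : ↥F₀) = 0 ∨ E Q ≤ Q.ord (toBar F₀ (a : ↥F₀)) := by
      rcases ha with ha | ha
      · left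
        rw [ha]
        exact map_zero _
      · exact Or.inr (ha Q hQ)
    have hb' : toBar F₀ (b : ↥F₀) = 0 ∨ E Q ≤ Q.ord (toBar F₀ (b : ↥F₀)) := by
      rcases hb with hb | hb
      · left
        rw [hb]
        exact map_zero _
      · exact Or.inr (hb Q hQ)
    show E Q ≤ Q.ord (toBar F₀ ((a : ↥F₀) + (b : ↥F₀)))
    rw [map_add]
    exact Fermat.Agent.H23.ord_add_ge Q hab' _ ha' hb'
  smul_mem' := by
    intro r a ha
    by_cases hra : r * a = 0
    · exact Or.inl hra
    right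
    intro Q hQ
    have hr : r ≠ 0 := left_ne_zero_of_mul hra
    have ha0 : a ≠ 0 := right_ne_zero_of_mul hra
    rcases ha with ha | ha
    · exact absurd ha ha0
    have hr' : toBar F₀ (r : ↥F₀) ≠ 0 := fun h => hr (Subtype.ext ((toBar_eq_zero_iff _).1 h))
    have ha' : toBar F₀ (a : ↥F₀) ≠ 0 := fun h => ha0 (Subtype.ext ((toBar_eq_zero_iff _).1 h))
    show E Q ≤ Q.ord (toBar F₀ ((r : ↥F₀) * (a : ↥F₀)))
    rw [map_mul, Q.ord_mul hr' ha']
    have h1 := ord_toBar_nonneg hT r Q hQ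
    have h2 := ha Q hQ
    omega

theorem mem_divIdeal (hT : TData F₀ t P) (E : Divisor QQbar (FBar F₀)) (f : RatRing F₀ t) :
    f ∈ divIdeal hT E ↔ f = 0 ∨
      ∀ Q : Place QQbar (FBar F₀), Q ≠ P → E Q ≤ Q.ord (toBar F₀ (f : ↥F₀)) := Iff.rfl

end Main

/-- **MW-E-D-SURJ**, from `HolDivisorStatement`, `DescentStatement` and integrality descent. -/
theorem idealDivisorSurj_of (hHD : HolDivisorStatement) (hDesc : DescentStatement)
    (hInt : IntegralDescentStatement) : IdealDivisorSurjStatement := by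
  intro F₀ t P hT x hx
  classical
  -- Riemann's theorem and the invariant effective representative
  have hRR : Fermat.Agent.H58.RRHyp QQbar (FBar F₀) :=
    Fermat.Agent.H58.rrHyp_charZero QQbar (FBar F₀) (toBar F₀ t) hT.trans_bar hT.fin_bar
  have hPord : ∀ f : FBar F₀, P.ord f = ((f : FBar F₀) : LaurentSeries QQbar).order := by
    intro f
    by_cases hf : f = 0
    · rw [hf, P.ord_zero]
      exact HahnSeries.order_zero.symm
    · exact hT.isInf f hf
  have hPfix : ∀ σ : GalQ, arithmeticGalois F₀ σ • P = P := fun σ =>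
    Fermat.Agent.H53.arithmeticGalois_smul_qPlace F₀ P hPord σ
  obtain ⟨n, E, hE0, hEP, ⟨D₀, hD₀x, hED₀⟩, -, -, hinv⟩ :=
    Fermat.Agent.H53.exists_invariant_effective hRR P x
  have hEinv : ∀ σ : GalQ, arithmeticGalois F₀ σ • E = E := fun σ =>
    hinv _ (hPfix σ) (hx σ)
  have hD₀Q : ∀ Q : Place QQbar (FBar F₀), Q ≠ P → (D₀ : Divisor QQbar (FBar F₀)) Q = E Q := by
    intro Q hQ
    rw [hED₀, Finsupp.add_apply, Finsupp.single_apply, if_neg (Ne.symm hQ), add_zero]
  -- the ideal of `BarRing`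
  have hSP : SinglePole QQbar (toBar F₀ t) P := ⟨hT.trans_bar, hT.fin_bar, hT.pole, hT.reg⟩
  obtain ⟨J, -, hJmem, hJmin⟩ := hHD QQbar (FBar F₀) (toBar F₀ t) P hSP E hEP hE0
  -- the subspace `V`
  let incl : BarRing F₀ t →ₗ[QQbar] FBar F₀ :=
    { toFun := fun h => (h : FBar F₀)
      map_add' := fun _ _ => rfl
      map_smul' := fun _ _ => rfl }
  let V : Submodule QQbar (FBar F₀) := (J.restrictScalars QQbar).map incl
  have hVmem : ∀ v : FBar F₀, v ∈ V ↔ ∃ h : BarRing F₀ t, h ∈ J ∧ (h : FBar F₀) = v := by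
    intro v
    rw [Submodule.mem_map]
    rfl
  have hVstable : ∀ (σ : GalQ) (v : FBar F₀), v ∈ V → arithmeticGalois F₀ σ • v ∈ V := by
    intro σ v hv
    rw [hVmem] at hv ⊢
    obtain ⟨h, hhJ, rfl⟩ := hv
    have hint : IsIntegral (Algebra.adjoin QQbar ({toBar F₀ t} : Set (FBar F₀)))
        (arithmeticGalois F₀ σ • (h : FBar F₀)) :=
      isIntegral_smul (arithmeticGalois F₀ σ) (toBar F₀ t) (arithmeticGalois_smul_toBar σ t) h.2
    refine ⟨⟨arithmeticGalois F₀ σ • (h : FBar F₀), hint⟩, ?_, rfl⟩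
    rw [hJmem]
    rcases (hJmem h).1 hhJ with h0 | hh
    · left
      apply Subtype.ext
      show arithmeticGalois F₀ σ • (h : FBar F₀) = 0
      rw [h0]
      exact smul_zero _
    · right
      intro Q hQ
      show E Q ≤ Q.ord (arithmeticGalois F₀ σ • (h : FBar F₀))
      have h1 := SemilinearAut.ord_smul (arithmeticGalois F₀ σ)
        ((arithmeticGalois F₀ σ)⁻¹ • Q) (h : FBar F₀)
      rw [smul_inv_smul] at h1
      rw [h1]
      have hQ' : (arithmeticGalois F₀ σ)⁻¹ • Q ≠ P := by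
        intro hcon
        apply hQ
        rw [← hPfix σ, ← hcon, smul_inv_smul]
      have h2 := hh ((arithmeticGalois F₀ σ)⁻¹ • Q) hQ'
      have h3 : E ((arithmeticGalois F₀ σ)⁻¹ • Q) = E Q := by
        have h4 := SemilinearAut.divisor_smul_apply (arithmeticGalois F₀ σ) E Q
        rw [hEinv σ] at h4
        exact h4.symm
      omega
  have hspan := hDesc F₀ V hVstable
  -- the rational elements of `V` lie in `divIdeal`
  have hrat : ∀ (f : ↥F₀), toBar F₀ f ∈ V → toBar F₀ f ≠ 0 →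
      ∃ r : RatRing F₀ t, (r : ↥F₀) = f ∧ r ∈ divIdeal hT E ∧ r ≠ 0 := by
    intro f hfV hf0
    rw [hVmem] at hfV
    obtain ⟨h, hhJ, hhf⟩ := hfV
    have hint : IsIntegral (Algebra.adjoin QQbar ({toBar F₀ t} : Set (FBar F₀)))
        (toBar F₀ f) := by
      rw [← hhf]
      exact h.2
    refine ⟨⟨f, hInt F₀ t f hint⟩, rfl, ?_, ?_⟩
    · right
      intro Q hQ
      show E Q ≤ Q.ord (toBar F₀ f)
      rcases (hJmem h).1 hhJ with h0 | hh
      · exfalso
        apply hf0
        rw [← hhf, h0]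
        rfl
      · rw [← hhf]
        exact hh Q hQ
    · intro h0
      apply hf0
      have : f = 0 := congrArg Subtype.val h0
      rw [this, map_zero]
  -- the minima are attained
  have hmin : ∀ Q : Place QQbar (FBar F₀), Q ≠ P →
      ∃ r ∈ divIdeal hT E, r ≠ 0 ∧ Q.ord (toBar F₀ (r : ↥F₀)) = E Q := by
    intro Q hQ
    obtain ⟨h, hhJ, hh0, hhQ⟩ := hJmin Q hQ
    by_contra hcon
    push_neg at hcon
    have hv : (h : FBar F₀) ∈ V := (hVmem _).2 ⟨h, hhJ, rfl⟩
    have hS : ∀ w ∈ {w : FBar F₀ | w ∈ V ∧ ∃ f : ↥F₀, toBar F₀ f = w},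
        w = 0 ∨ E Q + 1 ≤ Q.ord w := by
      rintro w ⟨hwV, f, rfl⟩
      by_cases hw0 : toBar F₀ f = 0
      · exact Or.inl hw0
      right
      obtain ⟨r, hrf, hrI, hr0⟩ := hrat f hwV hw0
      have h1 := hcon r hrI hr0
      rw [hrf] at h1
      have h2 : E Q ≤ Q.ord (toBar F₀ f) := by
        rcases (mem_divIdeal hT E r).1 hrI with h | h
        · exact absurd h hr0
        · rw [← hrf]
          exact h Q hQ
      omega
    have h3 := span_ord_ge Q (E Q + 1) _ hS (hspan _ hv)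
    rcases h3 with h3 | h3
    · apply hh0
      exact Subtype.ext h3
    · omega
  -- conclusion
  haveI : Infinite (Place QQbar (FBar F₀)) := hRR.infinite_place
  obtain ⟨Q₁, hQ₁⟩ := exists_ne P
  obtain ⟨r₁, hr₁I, hr₁0, -⟩ := hmin Q₁ hQ₁
  refine ⟨divIdeal hT E, (D₀ : Divisor QQbar (FBar F₀)),
    ⟨Divisor.mem_degZero.mp D₀.2, fun Q hQ => ⟨?_, ?_⟩⟩, ?_, hD₀x⟩
  · intro f hf hf0
    rw [hD₀Q Q hQ]
    rcases (mem_divIdeal hT E f).1 hf with h | h
    · exact absurd h hf0
    · exact h Q hQ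
  · obtain ⟨r, hrI, hr0, hrQ⟩ := hmin Q hQ
    exact ⟨r, hrI, hr0, by rw [hD₀Q Q hQ, hrQ]⟩
  · intro hbot
    apply hr₁0
    have : r₁ ∈ (⊥ : Ideal (RatRing F₀ t)) := hbot ▸ hr₁I
    exact (Submodule.mem_bot _).1 this

end Fermat.Agent.H1.MWE

end
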